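/-
S41 (P8), the instance of the abstract level-raising lemma (helper59).

`L = Par(N, ℤ)`, `M = Par(N q, ℤ)` (parabolic `ℤ`-valued homomorphisms), `α = res1 + res2`,
`β = (tr1, tr2)`, `S ℓ`, `T ℓ` the Hecke operators `T_ℓ` of the two levels, `τ = T_q` at level `N`.
All inputs that are produced by other pieces are explicit hypotheses.
-/
import Mathlib
import Fermat.Agent.S41.R1.CongruenceLemma
import Fermat.Agent.S41.Level.Degeneracy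
import Fermat.Agent.S41.Level.Parabolic

set_option autoImplicit false
set_option linter.unusedSectionVars false

namespace Fermat.Agent.S41.Assembly

open scoped MatrixGroups
open Matrix CongruenceSubgroup Fermat.Agent.S16.HeckeHom Fermat.Agent.S41.Level
  ModularCurve.Period

/-- `ℤ`-valued homomorphisms on `Γ₀(N)`. -/
abbrev Hm (N : ℕ) := Additive (Gamma0 N) →+ ℤ

/-- Parabolic `ℤ`-valued homomorphisms on `Γ₀(N)`. -/
abbrev Par (N : ℕ) : Submodule ℤ (Hm N) := parabolicHoms ℤ (Gamma0 N) ℤ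

theorem mem_Par {N : ℕ} {φ : Hm N} : φ ∈ Par N ↔ IsParabolicHom (Gamma0 N) φ := Iff.rfl

section Ops

variable {G G' : Subgroup SL(2, ℤ)} {I : Type} [Fintype I]

/-- The operator of a weak coset system as a `ℤ`-linear map on `ℤ`-valued homomorphisms. -/
noncomputable def opLin (C : WCS G G' I) : (Additive G' →+ ℤ) →ₗ[ℤ] (Additive G →+ ℤ) :=
  (C.opAdd (A := ℤ)).toIntLinearMap

@[simp] theorem opLin_apply (C : WCS G G' I) (φ : Additive G' →+ ℤ) : opLin C φ = C.op φ := rfl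

end Ops

variable {N q : ℕ}

/-- `T_ℓ` on `ℤ`-valued homomorphisms of level `N`. -/
noncomputable def TLin (N ℓ : ℕ) [Fact ℓ.Prime] (hℓ : ¬ ℓ ∣ N) : Hm N →ₗ[ℤ] Hm N :=
  ((cosetT N ℓ hℓ).heckeHomAdd (A := ℤ)).toIntLinearMap

@[simp] theorem TLin_apply (N ℓ : ℕ) [Fact ℓ.Prime] (hℓ : ¬ ℓ ∣ N) (φ : Hm N) :
    TLin N ℓ hℓ φ = (cosetT N ℓ hℓ).heckeHom φ := rfl

theorem TLin_mem_Par (N ℓ : ℕ) [Fact ℓ.Prime] (hℓ : ¬ ℓ ∣ N) {φ : Hm N} (hφ : φ ∈ Par N) :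
    TLin N ℓ hℓ φ ∈ Par N := by
  rw [TLin_apply, ← sysT_op]
  exact WCS.op_isParabolicHom _ (sysT_rigid N ℓ hℓ).det_ne hφ

theorem res1_mem_Par {φ : Hm N} (hφ : φ ∈ Par N) : (res1 φ : Hm (N * q)) ∈ Par (N * q) := by
  refine WCS.op_isParabolicHom (resSys N q) (fun _ => ?_) hφ
  show (1 : Matrix (Fin 2) (Fin 2) ℤ).det ≠ 0
  rw [Matrix.det_one]; exact one_ne_zero

theorem wAL_mem_Par (d : ALData N q) {ψ : Hm (N * q)} (hψ : ψ ∈ Par (N * q)) :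
    wAL d ψ ∈ Par (N * q) :=
  WCS.op_isParabolicHom d.alSys d.alSys_rigid.det_ne hψ

theorem tr1_mem_Par [NeZero (N * q)] {ψ : Hm (N * q)} (hψ : ψ ∈ Par (N * q)) :
    (tr1 ψ : Hm N) ∈ Par N :=
  WCS.op_isParabolicHom (trSys N q) (transferSys_rigid _).det_ne hψ

theorem res2_mem_Par (d : ALData N q) {φ : Hm N} (hφ : φ ∈ Par N) :
    res2 d φ ∈ Par (N * q) := wAL_mem_Par d (res1_mem_Par hφ)

theorem tr2_mem_Par [NeZero (N * q)] (d : ALData N q) {ψ : Hm (N * q)} (hψ : ψ ∈ Par (N * q)) :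
    tr2 d ψ ∈ Par N := tr1_mem_Par (wAL_mem_Par d hψ)

section Main

open Fermat.Agent.S41.R1.CongruenceLemma

variable [NeZero (N * q)] [hq : Fact q.Prime]

/-- The index type: good primes `ℓ ∤ N q`, `ℓ ≠ p`. -/
def Idx (N q p : ℕ) (good : ℕ → Prop) := {ℓ : ℕ // ℓ.Prime ∧ ¬ ℓ ∣ N * q ∧ good ℓ ∧ ℓ ≠ p}

theorem not_dvd_left_of_not_dvd_mul {ℓ : ℕ} (h : ¬ ℓ ∣ N * q) : ¬ ℓ ∣ N :=
  fun h' => h (dvd_mul_of_dvd_left h' q)

/-- `T_ℓ` on `Par(N, ℤ)`. -/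
noncomputable def SPar (N ℓ : ℕ) [Fact ℓ.Prime] (hℓ : ¬ ℓ ∣ N) : Module.End ℤ (Par N) :=
  (TLin N ℓ hℓ).restrict (fun _ hφ => TLin_mem_Par N ℓ hℓ hφ)

@[simp] theorem SPar_coe (N ℓ : ℕ) [Fact ℓ.Prime] (hℓ : ¬ ℓ ∣ N) (φ : Par N) :
    ((SPar N ℓ hℓ φ : Par N) : Hm N) = TLin N ℓ hℓ φ := rfl

/-- `res1` on parabolic classes. -/
noncomputable def R1Par (N q : ℕ) : Par N →ₗ[ℤ] Par (N * q) :=
  (opLin (resSys N q)).restrict (fun _ hφ => res1_mem_Par hφ)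

/-- `res2` on parabolic classes. -/
noncomputable def R2Par (d : ALData N q) : Par N →ₗ[ℤ] Par (N * q) :=
  ((opLin d.alSys).comp (opLin (resSys N q))).restrict (fun _ hφ => res2_mem_Par d hφ)

/-- `tr1` on parabolic classes. -/
noncomputable def B1Par (N q : ℕ) [NeZero (N * q)] : Par (N * q) →ₗ[ℤ] Par N :=
  (opLin (trSys N q)).restrict (fun _ hψ => tr1_mem_Par hψ)

/-- `tr2` on parabolic classes. -/
noncomputable def B2Par (d : ALData N q) : Par (N * q) →ₗ[ℤ] Par N :=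
  ((opLin (trSys N q)).comp (opLin d.alSys)).restrict (fun _ hψ => tr2_mem_Par d hψ)

@[simp] theorem R1Par_coe (φ : Par N) : ((R1Par N q φ : Par (N * q)) : Hm (N * q)) = res1 φ.1 := rfl

@[simp] theorem R2Par_coe (d : ALData N q) (φ : Par N) :
    ((R2Par d φ : Par (N * q)) : Hm (N * q)) = res2 d φ.1 := rfl

@[simp] theorem B1Par_coe (ψ : Par (N * q)) : ((B1Par N q ψ : Par N) : Hm N) = tr1 ψ.1 := rfl

@[simp] theorem B2Par_coe (d : ALData N q) (ψ : Par (N * q)) :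
    ((B2Par d ψ : Par N) : Hm N) = tr2 d ψ.1 := rfl

theorem div_par_iff {N : ℕ} {p : ℕ} (x : Par N) :
    Div (p : ℤ) (Par N) x ↔ ∃ u ∈ Par N, (x : Hm N) = (p : ℤ) • u := by
  constructor
  · rintro ⟨y, rfl⟩; exact ⟨y.1, y.2, rfl⟩
  · rintro ⟨u, hu, hx⟩; exact ⟨⟨u, hu⟩, Subtype.ext hx⟩

/-- **The instance of the abstract level-raising lemma.** -/
theorem exists_new_vector (hqN : ¬ q ∣ N) (d : ALData N q) {p : ℕ} (hp0 : p ≠ 0)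
    (good : ℕ → Prop) (a : ℕ → ℤ)
    (hfin : Module.Finite ℤ (Par N))
    (hcommN : ∀ (ℓ ℓ' : ℕ) [Fact ℓ.Prime] [Fact ℓ'.Prime] (hℓ : ¬ ℓ ∣ N) (hℓ' : ¬ ℓ' ∣ N)
      (φ : Hm N), φ ∈ Par N →
        TLin N ℓ hℓ (TLin N ℓ' hℓ' φ) = TLin N ℓ' hℓ' (TLin N ℓ hℓ φ))
    (hcommM : ∀ (ℓ ℓ' : ℕ) [Fact ℓ.Prime] [Fact ℓ'.Prime] (hℓ : ¬ ℓ ∣ N * q) (hℓ' : ¬ ℓ' ∣ N * q)
      (ψ : Hm (N * q)), ψ ∈ Par (N * q) →
        TLin (N * q) ℓ hℓ (TLin (N * q) ℓ' hℓ' ψ) = TLin (N * q) ℓ' hℓ' (TLin (N * q) ℓ hℓ ψ))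
    (H2 : ∀ (ℓ : ℕ) [Fact ℓ.Prime] (hℓM : ¬ ℓ ∣ N * q) (ψ : Hm (N * q)),
      wAL d (TLin (N * q) ℓ hℓM ψ) = TLin (N * q) ℓ hℓM (wAL d ψ))
    (H3 : ∀ (ℓ : ℕ) [Fact ℓ.Prime] (hℓN : ¬ ℓ ∣ N) (hℓM : ¬ ℓ ∣ N * q) (ψ : Hm (N * q)),
      tr1 (TLin (N * q) ℓ hℓM ψ) = TLin N ℓ hℓN (tr1 ψ))
    (H4 : ∀ φ : Hm N, tr1 (res1 φ : Hm (N * q)) = ((q : ℤ) + 1) • φ)
    (H5 : ∀ φ : Hm N, tr1 (wAL d (res1 φ)) = TLin N q hqN φ)
    (l₀ : ℕ) [Fact l₀.Prime] (hl₀M : ¬ l₀ ∣ N * q) (hl₀good : good l₀) (hl₀p : l₀ ≠ p)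
    (hl₀ : IsCoprime (a l₀ - ((l₀ : ℤ) + 1)) (p : ℤ))
    (hIhara : ∀ x y : Hm N, x ∈ Par N → y ∈ Par N →
      (∃ m ∈ Par (N * q), res1 x + res2 d y = (p : ℤ) • m) →
      (∃ u ∈ Par N, TLin N l₀ (not_dvd_left_of_not_dvd_mul hl₀M) x - ((l₀ : ℤ) + 1) • x
          = (p : ℤ) • u) ∧
      (∃ u ∈ Par N, TLin N l₀ (not_dvd_left_of_not_dvd_mul hl₀M) y - ((l₀ : ℤ) + 1) • y
          = (p : ℤ) • u))
    (hDual : ∀ x y : Hm N, x ∈ Par N → y ∈ Par N → ∃ m ∈ Par (N * q),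
      (∃ u ∈ Par N, TLin N l₀ (not_dvd_left_of_not_dvd_mul hl₀M) x - ((l₀ : ℤ) + 1) • x - tr1 m
          = (p : ℤ) • u) ∧
      (∃ u ∈ Par N, TLin N l₀ (not_dvd_left_of_not_dvd_mul hl₀M) y - ((l₀ : ℤ) + 1) • y
          - tr2 d m = (p : ℤ) • u))
    (v₀ : Hm N) (hv₀ : v₀ ∈ Par N) (hv₀p : ¬ ∃ u ∈ Par N, v₀ = (p : ℤ) • u)
    (hv₀T : ∀ (ℓ : ℕ) [Fact ℓ.Prime] (hℓM : ¬ ℓ ∣ N * q), good ℓ → ℓ ≠ p →
      ∃ u ∈ Par N, TLin N ℓ (not_dvd_left_of_not_dvd_mul hℓM) v₀ - a ℓ • v₀ = (p : ℤ) • u)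
    (hv₀q : ∃ u ∈ Par N, TLin N q hqN (TLin N q hqN v₀)
      - (((q : ℤ) + 1) * ((q : ℤ) + 1)) • v₀ = (p : ℤ) • u) :
    ∃ x : Hm (N * q), x ∈ Par (N * q) ∧ tr1 x = 0 ∧ tr2 d x = 0 ∧
      (¬ ∃ u ∈ Par (N * q), x = (p : ℤ) • u) ∧
      ∀ (ℓ : ℕ) [Fact ℓ.Prime] (hℓM : ¬ ℓ ∣ N * q), good ℓ → ℓ ≠ p →
        ∃ m ∈ Par (N * q), tr1 m = 0 ∧ tr2 d m = 0 ∧
          TLin (N * q) ℓ hℓM x - a ℓ • x = (p : ℤ) • m := by
  classical
  have := hfin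
  -- the operator families
  let S : Idx N q p good → Module.End ℤ (Par N) := fun i =>
    haveI : Fact i.1.Prime := ⟨i.2.1⟩
    SPar N i.1 (not_dvd_left_of_not_dvd_mul i.2.2.1)
  let T : Idx N q p good → Module.End ℤ (Par (N * q)) := fun i =>
    haveI : Fact i.1.Prime := ⟨i.2.1⟩
    SPar (N * q) i.1 i.2.2.1
  let α : Par N × Par N →ₗ[ℤ] Par (N * q) := (R1Par N q).coprod (R2Par d)
  let β : Par (N * q) →ₗ[ℤ] Par N × Par N := (B1Par N q).prod (B2Par d)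
  let τ : Module.End ℤ (Par N) := SPar N q hqN
  let i₀ : Idx N q p good := ⟨l₀, Fact.out, hl₀M, hl₀good, hl₀p⟩
  have hS_coe : ∀ (i : Idx N q p good) (φ : Par N),
      ((S i φ : Par N) : Hm N) =
        @TLin N i.1 ⟨i.2.1⟩ (not_dvd_left_of_not_dvd_mul i.2.2.1) φ := fun _ _ => rfl
  have hT_coe : ∀ (i : Idx N q p good) (ψ : Par (N * q)),
      ((T i ψ : Par (N * q)) : Hm (N * q)) = @TLin (N * q) i.1 ⟨i.2.1⟩ i.2.2.1 ψ := fun _ _ => rfl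
  have hα_coe : ∀ x : Par N × Par N, ((α x : Par (N * q)) : Hm (N * q)) =
      res1 x.1.1 + res2 d x.2.1 := fun _ => rfl
  have hβ1 : ∀ m : Par (N * q), (((β m).1 : Par N) : Hm N) = tr1 m.1 := fun _ => rfl
  have hβ2 : ∀ m : Par (N * q), (((β m).2 : Par N) : Hm N) = tr2 d m.1 := fun _ => rfl
  -- res2 and tr2 commute with the Hecke operators
  have hres2T : ∀ (ℓ : ℕ) [Fact ℓ.Prime] (hℓM : ¬ ℓ ∣ N * q) (φ : Hm N),
      res2 d (TLin N ℓ (not_dvd_left_of_not_dvd_mul hℓM) φ) = TLin (N * q) ℓ hℓM (res2 d φ) := by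
    intro ℓ _ hℓM φ
    show wAL d (res1 (TLin N ℓ _ φ)) = _
    rw [TLin_apply, res1_heckeT ℓ _ hℓM, ← TLin_apply, H2]
    rfl
  have htr2T : ∀ (ℓ : ℕ) [Fact ℓ.Prime] (hℓM : ¬ ℓ ∣ N * q) (ψ : Hm (N * q)),
      tr2 d (TLin (N * q) ℓ hℓM ψ) = TLin N ℓ (not_dvd_left_of_not_dvd_mul hℓM) (tr2 d ψ) := by
    intro ℓ _ hℓM ψ
    show tr1 (wAL d (TLin (N * q) ℓ hℓM ψ)) = _
    rw [H2, H3 ℓ (not_dvd_left_of_not_dvd_mul hℓM) hℓM]
    rfl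
  obtain ⟨x, hx0, hxp, hxT⟩ := exists_kernel_eigenvector_prod (ϖ := (p : ℤ)) S T (fun i => a i.1) α β
    (by
      intro i j m
      apply Subtype.ext
      rw [hT_coe, hT_coe, hT_coe, hT_coe]
      exact @hcommM i.1 j.1 ⟨i.2.1⟩ ⟨j.2.1⟩ i.2.2.1 j.2.2.1 m.1 m.2)
    (by
      intro i x
      have : Fact i.1.Prime := ⟨i.2.1⟩
      apply Subtype.ext
      rw [hT_coe, hα_coe, hα_coe]
      show res1 (TLin N i.1 _ x.1.1) + res2 d (TLin N i.1 _ x.2.1) = _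
      rw [map_add, hres2T i.1 i.2.2.1, TLin_apply, res1_heckeT i.1 _ i.2.2.1]
      rfl)
    (by
      intro i m
      have : Fact i.1.Prime := ⟨i.2.1⟩
      apply Prod.ext
      · apply Subtype.ext
        rw [hβ1, hT_coe]
        show _ = TLin N i.1 _ (tr1 m.1)
        rw [H3 i.1 (not_dvd_left_of_not_dvd_mul i.2.2.1) i.2.2.1]
      · apply Subtype.ext
        rw [hβ2, hT_coe]
        show _ = TLin N i.1 _ (tr2 d m.1)
        rw [htr2T i.1 i.2.2.1])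
    (by
      intro y hy
      have hpne : (p : ℤ) ≠ 0 := by exact_mod_cast hp0
      apply Subtype.ext
      refine AddMonoidHom.ext fun γ => ?_
      have h1 := congrArg (fun z : Par N => (z : Hm N) γ) hy
      simp only [Submodule.coe_smul, AddMonoidHom.smul_apply, smul_eq_mul, Submodule.coe_zero,
        AddMonoidHom.zero_apply] at h1
      exact (mul_eq_zero.mp h1).resolve_left hpne)
    τ ((q : ℤ) + 1)
    (by
      intro i x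
      have : Fact i.1.Prime := ⟨i.2.1⟩
      apply Subtype.ext
      exact hcommN q i.1 hqN _ x.1 x.2)
    (by
      intro x
      apply Prod.ext
      · apply Subtype.ext
        rw [hβ1, hα_coe]
        show tr1 (res1 x.1.1 + res2 d x.2.1) = ((q : ℤ) + 1) • x.1.1 + TLin N q hqN x.2.1
        rw [tr1_add, H4]
        show _ + tr1 (wAL d (res1 x.2.1)) = _
        rw [H5]
      · apply Subtype.ext
        rw [hβ2, hα_coe]
        show tr1 (wAL d (res1 x.1.1 + wAL d (res1 x.2.1))) =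
          TLin N q hqN x.1.1 + ((q : ℤ) + 1) • x.2.1
        rw [wAL_add, wAL_wAL, tr1_add, H5, H4])
    i₀ ((l₀ : ℤ) + 1) hl₀
    (by
      intro x hx
      rw [div_par_iff] at hx
      obtain ⟨m, hm, hxm⟩ := hx
      rw [hα_coe] at hxm
      obtain ⟨h1, h2⟩ := hIhara x.1.1 x.2.1 x.1.2 x.2.2 ⟨m, hm, hxm⟩
      exact ⟨(div_par_iff _).mpr h1, (div_par_iff _).mpr h2⟩)
    (by
      intro y
      obtain ⟨m, hm, h1, h2⟩ := hDual y.1.1 y.2.1 y.1.2 y.2.2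
      exact ⟨⟨m, hm⟩, (div_par_iff _).mpr h1, (div_par_iff _).mpr h2⟩)
    ⟨v₀, hv₀⟩
    (by
      rw [div_par_iff]
      exact hv₀p)
    (by
      intro i
      have : Fact i.1.Prime := ⟨i.2.1⟩
      rw [div_par_iff]
      exact hv₀T i.1 i.2.2.1 i.2.2.2.1 i.2.2.2.2)
    (by
      rw [div_par_iff]
      exact hv₀q)
  refine ⟨x.1, x.2, ?_, ?_, ?_, ?_⟩
  · have := congrArg (fun z : Par N × Par N => (z.1 : Hm N)) hx0
    simpa [hβ1] using this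
  · have := congrArg (fun z : Par N × Par N => (z.2 : Hm N)) hx0
    simpa [hβ2] using this
  · intro h
    exact hxp ((div_par_iff x).mpr h)
  · intro ℓ _ hℓM hgood hℓp
    obtain ⟨m, hm0, hm⟩ := hxT ⟨ℓ, Fact.out, hℓM, hgood, hℓp⟩
    refine ⟨m.1, m.2, ?_, ?_, ?_⟩
    · have := congrArg (fun z : Par N × Par N => (z.1 : Hm N)) hm0
      simpa [hβ1] using this
    · have := congrArg (fun z : Par N × Par N => (z.2 : Hm N)) hm0
      simpa [hβ2] using this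
    · have := congrArg (fun z : Par (N * q) => (z : Hm (N * q))) hm
      exact this

end Main

end Fermat.Agent.S41.Assembly
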