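/-
S41 (P8), final assembly (helper59, architect).

`level_raising` proves the frozen conclusion of S41 from the frozen hypotheses plus ONE remaining
hypothesis `hPD` (the dual form of Ihara's lemma = Poincaré duality input, piece (P5)); every other
piece is consumed as a theorem:

* (P6) `P6.InputTorsionB.exists_torsion_input` (the mod `p` eigenclass `v₀` at level `N`),
* (P7') `R3.NonEisensteinSq.exists_good_square_prime` + `R3.FrobProducerB.frobProducer_all`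
  (a good prime `l₀ ∤ N q' p`, a square mod `N`, with `p ∤ l₀ + 1 - a_{l₀}`),
* (P4) `Ihara.IharaLevel.ihara_level` (Ihara's lemma, Eisenstein at squares),
* (P3) the level identities `Level.*`,
* (P2) `R1.CongruenceLemma` through `Assembly.Instance.exists_new_vector`,
* the tail `R4.Torsion.exists_newAt_congruentEigenform_of_torsion_datum`.
-/
import Mathlib
import Fermat.Agent.S41.Assembly.Instance
import Fermat.Agent.S41.Level.InstWTB
import Fermat.Agent.S41.Level.InstTrTB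
import Fermat.Agent.S41.Level.InstTrRes
import Fermat.Agent.S41.Level.InstUWCor
import Fermat.Agent.S41.Ihara.IharaLevel
import Fermat.Agent.S41.P6.InputTorsionB
import Fermat.Agent.S41.R3.NonEisensteinSq
import Fermat.Agent.S41.R3.FrobProducerB
import Fermat.Agent.S41.R4.Torsion
import Fermat.Agent.S41.R4.TorsionAdapter
import Fermat.Agent.S41.PD.ParFinite

set_option autoImplicit false
set_option linter.unusedSectionVars false

namespace Fermat.Agent.S41.Assembly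

open scoped MatrixGroups
open Matrix CongruenceSubgroup Fermat.Agent.S16.HeckeHom Fermat.Agent.S41.Level
  ModularCurve.Period
open WeierstrassCurve WeierstrassCurve.Affine WeierstrassCurve.Affine.Point

variable {N q : ℕ}

/-- The conclusion of Ihara's lemma at the prime `l`, literal `hIhara` of `exists_new_vector`. -/
def IharaProp (N q l p : ℕ) [Fact l.Prime] (hlN : ¬ l ∣ N) (d : ALData N q) : Prop :=
  ∀ x y : Hm N, x ∈ Par N → y ∈ Par N →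
    (∃ m ∈ Par (N * q), res1 x + res2 d y = (p : ℤ) • m) →
    (∃ u ∈ Par N, TLin N l hlN x - ((l : ℤ) + 1) • x = (p : ℤ) • u) ∧
    (∃ u ∈ Par N, TLin N l hlN y - ((l : ℤ) + 1) • y = (p : ℤ) • u)

/-- The dual form of Ihara's lemma at the prime `l`, literal `hDual` of `exists_new_vector`. -/
def DualProp (N q l p : ℕ) [NeZero (N * q)] [Fact l.Prime] (hlN : ¬ l ∣ N) (d : ALData N q) :
    Prop :=
  ∀ x y : Hm N, x ∈ Par N → y ∈ Par N → ∃ m ∈ Par (N * q),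
    (∃ u ∈ Par N, TLin N l hlN x - ((l : ℤ) + 1) • x - tr1 m = (p : ℤ) • u) ∧
    (∃ u ∈ Par N, TLin N l hlN y - ((l : ℤ) + 1) • y - tr2 d m = (p : ℤ) • u)

/-- Ihara's lemma in the `IharaProp` shape. -/
theorem iharaProp_of_square (q N l p : ℕ) [Fact q.Prime] [Fact l.Prime] [Fact p.Prime]
    (hp2 : p ≠ 2) (hpq : p ≠ q) (hN : 0 < N) (hqN : ¬ q ∣ N) (hlN : ¬ l ∣ N)
    (t : ℤ) (ht2 : ((t : ℤ) : ZMod N) ^ 2 = (l : ZMod N)) (d : ALData N q) :
    IharaProp N q l p hlN d := by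
  intro x y hx hy ⟨m, _, hm⟩
  have hp0 : (p : ℤ) ≠ 0 := by
    exact_mod_cast (Fact.out : p.Prime).ne_zero
  obtain ⟨z1, z2, h1, h2⟩ :=
    Ihara.IharaLevel.ihara_level q N l p hp2 hpq hN hqN hlN t ht2 d x y hx m hm
  refine ⟨⟨z1, ?_, h1⟩, ⟨z2, ?_, h2⟩⟩
  · refine Ihara.KernelEisensteinInt.isParabolicHom_of_smul hp0 ?_
    rw [← h1]
    exact Submodule.sub_mem _ (TLin_mem_Par N l hlN hx) (Submodule.smul_mem _ _ hx)
  · refine Ihara.KernelEisensteinInt.isParabolicHom_of_smul hp0 ?_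
    rw [← h2]
    exact Submodule.sub_mem _ (TLin_mem_Par N l hlN hy) (Submodule.smul_mem _ _ hy)

/-- The `q`-new sublattice `ker tr1 ∩ ker tr2` of the parabolic classes of level `N q`. -/
noncomputable def newSub [NeZero (N * q)] (d : ALData N q) : AddSubgroup (Hm (N * q)) where
  carrier := {φ | φ ∈ Par (N * q) ∧ tr1 φ = 0 ∧ tr2 d φ = 0}
  zero_mem' := by
    refine ⟨Submodule.zero_mem _, tr1_zero, ?_⟩
    show tr1 (wAL d 0) = 0
    rw [wAL_zero, tr1_zero]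
  add_mem' := by
    rintro a b ⟨ha, ha1, ha2⟩ ⟨hb, hb1, hb2⟩
    refine ⟨Submodule.add_mem _ ha hb, ?_, ?_⟩
    · rw [tr1_add, ha1, hb1, add_zero]
    · show tr1 (wAL d (a + b)) = 0
      rw [wAL_add, tr1_add]
      have ha2' : tr1 (wAL d a) = 0 := ha2
      have hb2' : tr1 (wAL d b) = 0 := hb2
      rw [ha2', hb2', add_zero]
  neg_mem' := by
    rintro a ⟨ha, ha1, ha2⟩
    refine ⟨Submodule.neg_mem _ ha, ?_, ?_⟩
    · rw [InstUWB.tr1_neg, ha1, _root_.neg_zero]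
    · show tr1 (wAL d (-a)) = 0
      have ha2' : tr1 (wAL d a) = 0 := ha2
      rw [wAL_neg, InstUWB.tr1_neg, ha2', _root_.neg_zero]

theorem mem_newSub [NeZero (N * q)] (d : ALData N q) {φ : Hm (N * q)} :
    φ ∈ newSub d ↔ φ ∈ Par (N * q) ∧ tr1 φ = 0 ∧ tr2 d φ = 0 := Iff.rfl

/-- **Level raising, modulo the dual Ihara lemma.** -/
theorem level_raising
    (E : WeierstrassCurve ℚ) [E.IsElliptic] {W : WeierstrassCurve ℤ} (hW : W.IsIntegralModelOf E)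
    {p N q' : ℕ} (hp : p.Prime) (hp2 : p ≠ 2) (hN : 0 < N) (hq' : q'.Prime) (hq'N : ¬ q' ∣ N)
    (hq'p : q' ≠ p)
    (hirr : GaloisRepIsIrreducible (K := AlgebraicClosure ℚ) ℚ E p)
    (f : CuspForm (CongruenceSubgroup.Gamma0 N) 2) (𝔪 : Ideal (integralClosure ℤ ℂ))
    (hf : f.IsNormalizedEigenform) (hmax : 𝔪.IsMaximal) (hpm : (p : integralClosure ℤ ℂ) ∈ 𝔪)
    (hcong : ∀ ℓ : ℕ, ℓ.Prime → W.IsGoodPrimeFor ℓ → ¬ ℓ ∣ N → ℓ ≠ p →
      ∃ a : integralClosure ℤ ℂ, (a : ℂ) = ModularFormClass.qCoeff f ℓ ∧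
        a - ((W.apOfModel ℓ : ℤ) : integralClosure ℤ ℂ) ∈ 𝔪)
    (hLR : ∃ a : integralClosure ℤ ℂ, (a : ℂ) = ModularFormClass.qCoeff f q' ∧
      a ^ 2 - ((q' : integralClosure ℤ ℂ) + 1) ^ 2 ∈ 𝔪)
    (hPD : ∀ [NeZero (N * q')] (l : ℕ) [Fact l.Prime] (hlN : ¬ l ∣ N) (_hlM : ¬ l ∣ N * q')
      (_hlp : l ≠ p) (d : ALData N q'),
      IharaProp N q' l p hlN d → DualProp N q' l p hlN d) :
    ∃ (g : CuspForm (CongruenceSubgroup.Gamma0 (N * q')) 2) (𝔪' : Ideal (integralClosure ℤ ℂ)),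
      g.IsNormalizedEigenform ∧ 𝔪'.IsMaximal ∧ (p : integralClosure ℤ ℂ) ∈ 𝔪' ∧
      (∀ ℓ : ℕ, ℓ.Prime → W.IsGoodPrimeFor ℓ → ¬ ℓ ∣ N * q' → ℓ ≠ p →
        ∃ a : integralClosure ℤ ℂ, (a : ℂ) = ModularFormClass.qCoeff g ℓ ∧
          a - ((W.apOfModel ℓ : ℤ) : integralClosure ℤ ℂ) ∈ 𝔪') ∧
      g.IsNewAt q' := by
  have : NeZero N := ⟨hN.ne'⟩
  have : NeZero (N * q') := ⟨(Nat.mul_pos hN hq'.pos).ne'⟩
  have : Fact q'.Prime := ⟨hq'⟩
  have : Fact p.Prime := ⟨hp⟩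
  have hp0 : (p : ℤ) ≠ 0 := by exact_mod_cast hp.ne_zero
  -- (P6) the input class
  obtain ⟨v₀, hv₀, hv₀p, hv₀T, hv₀q⟩ :=
    P6.InputTorsionB.exists_torsion_input (W := W) hp hq' hq'N f 𝔪 hf hmax hpm hcong hLR
  -- (P7') the non-Eisenstein prime
  obtain ⟨l₀, hl₀, hl₀S, hl₀good, hl₀p, hl₀N, ⟨t, ht⟩, hl₀nd⟩ :=
    R3.NonEisensteinSq.exists_good_square_prime E R3.FrobProducerB.frobProducer_all hW hp hp2
      hirr N {q'}
  have : Fact l₀.Prime := ⟨hl₀⟩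
  have hl₀q : l₀ ≠ q' := by simpa using hl₀S
  have hl₀M : ¬ l₀ ∣ N * q' := by
    intro h
    rcases (Nat.Prime.dvd_mul hl₀).1 h with h | h
    · exact hl₀N h
    · exact hl₀q ((Nat.prime_dvd_prime_iff_eq hl₀ hq').1 h)
  -- Atkin-Lehner data
  obtain ⟨d⟩ := ALData.nonempty (N := N) (q := q') hq'.pos
    ((Nat.Prime.coprime_iff_not_dvd hq').2 hq'N)
  -- coprimality of the Eisenstein defect
  have hcop : IsCoprime (W.apOfModel l₀ - ((l₀ : ℤ) + 1)) (p : ℤ) := by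
    have hpi : Prime (p : ℤ) := Nat.prime_iff_prime_int.mp hp
    refine (IsCoprime.symm ?_)
    rw [hpi.irreducible.coprime_iff_not_dvd]
    intro h
    apply hl₀nd
    have : (l₀ : ℤ) + 1 - W.apOfModel l₀ = -(W.apOfModel l₀ - ((l₀ : ℤ) + 1)) := by ring
    rw [this]
    exact (dvd_neg).2 h
  -- Ihara and its dual
  have hIh : IharaProp N q' l₀ p hl₀N d :=
    iharaProp_of_square q' N l₀ p hp2 hq'p.symm hN hq'N hl₀N t ht d
  have hDu : DualProp N q' l₀ p hl₀N d := hPD l₀ hl₀N hl₀M hl₀p d hIh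
  -- the abstract lemma
  obtain ⟨x, hxP, hx1, hx2, hxp, hxT⟩ :=
    exists_new_vector (N := N) (q := q') hq'N d (p := p) hp.ne_zero W.IsGoodPrimeFor W.apOfModel
      (PD.ParFinite.finite_parabolicHoms_gamma0 N)
      (fun ℓ ℓ' hℓ hℓ' hℓN hℓ'N φ hφ =>
        R4.TorsionAdapter.cT_comm hℓ.out hℓN hℓ'.out hℓ'N hφ)
      (fun ℓ ℓ' hℓ hℓ' hℓM hℓ'M ψ hψ =>
        R4.TorsionAdapter.cT_comm hℓ.out hℓM hℓ'.out hℓ'M hψ)
      (fun ℓ _ hℓM ψ => InstWTB.wAL_heckeT d ℓ hℓM ψ)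
      (fun ℓ _ hℓN hℓM ψ => InstTrTB.tr1_heckeT hq'N ℓ hℓN hℓM ψ)
      (fun φ => by
        rw [tr1_res1 hq'N φ]
        rw [← natCast_zsmul]
        push_cast
        rfl)
      (fun φ => tr1_wAL_res1 hq'N d φ)
      l₀ hl₀M hl₀good hl₀p hcop hIh hDu v₀ hv₀
      (fun ⟨u, hu, h⟩ => hv₀p ⟨u, hu, h⟩)
      (fun ℓ hℓ hℓM hgood hℓp => by
        obtain ⟨u, hu, h⟩ := hv₀T ℓ hℓ.out (not_dvd_left_of_not_dvd_mul hℓM) hgood hℓp
        exact ⟨u, hu, h⟩)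
      (by
        obtain ⟨u, hu, h⟩ := hv₀q
        refine ⟨u, hu, ?_⟩
        rw [← h, pow_two]
        rfl)
  -- the tail
  refine R4.Torsion.exists_newAt_congruentEigenform_of_torsion_datum (W := W) (p := p) (N := N)
    hq' (newSub d) (fun φ hφ => hφ.1) ?_ ?_ x ⟨hxP, hx1, hx2⟩ ?_ ?_
  · -- `T_ℓ` preserves the new sublattice
    intro ℓ hℓ hℓM _ _ φ hφ
    have : Fact ℓ.Prime := ⟨hℓ⟩
    have hℓN : ¬ ℓ ∣ N := not_dvd_left_of_not_dvd_mul hℓM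
    refine ⟨TLin_mem_Par (N * q') ℓ hℓM hφ.1, ?_, ?_⟩
    · show tr1 ((cosetT (N * q') ℓ hℓM).heckeHom φ) = 0
      rw [InstTrTB.tr1_heckeT hq'N ℓ hℓN hℓM φ, hφ.2.1]
      exact CosetSystem.heckeHom_zero _
    · show tr2 d ((cosetT (N * q') ℓ hℓM).heckeHom φ) = 0
      rw [InstTrTB.tr2_heckeT d hq'N ℓ hℓN hℓM φ, hφ.2.2]
      exact CosetSystem.heckeHom_zero _
  · -- `U_q'` is an involution on the new sublattice
    intro φ hφ
    exact InstUWB.heckeU_heckeU d hq'N φ hφ.2.1 hφ.2.2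
  · intro k hk h
    exact hxp ⟨k, hk.1, h⟩
  · intro ℓ hℓ hℓM hgood hℓp
    have : Fact ℓ.Prime := ⟨hℓ⟩
    obtain ⟨m, hm, hm1, hm2, h⟩ := hxT ℓ hℓM hgood hℓp
    exact ⟨m, ⟨hm, hm1, hm2⟩, h⟩

end Fermat.Agent.S41.Assembly
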