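/-
S41 (P5) → (P8) joint (helper59, architect): the dual form of Ihara's lemma, in the literal shape of
the hypothesis `hPD` of `Assembly.level_raising`.

Pure instantiation of helper20's abstract `R1.DualIharaInst.hDual_of_pairings_mem` with helper78's
integral Poincaré pairing `PD.LatticeInst.LP` (unimodular, `res1 ⊣ tr1`, `wAL` an isometry) and the
level operators of `Level/*`.  The self-adjointness of `T_l` at level `N` comes from (I5)
`T_l = tr1 ∘ wAL ∘ res1` at the auxiliary pair of levels `(N, N l)`.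
-/
import Mathlib
import Fermat.Agent.S41.Assembly.Main
import Fermat.Agent.S41.R1.DualIharaInst
import Fermat.Agent.S41.PD.LatticeInst

set_option autoImplicit false

namespace Fermat.Agent.S41.Assembly

open scoped MatrixGroups
open Matrix CongruenceSubgroup Fermat.Agent.S16.HeckeHom Fermat.Agent.S41.Level
  ModularCurve.Period Fermat.Agent.S41.PD.LatticeInst

/-- **The dual Ihara lemma**: `hPD` of `level_raising`. -/
theorem dualProp_of_iharaProp {p N q : ℕ} (hp : p.Prime) [NeZero N] [NeZero (N * q)]
    (l : ℕ) [hl : Fact l.Prime] (hlN : ¬ l ∣ N) (d : ALData N q) :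
    IharaProp N q l p hlN d → DualProp N q l p hlN d := by
  intro hIh
  have : NeZero (N * l) := ⟨Nat.mul_ne_zero (NeZero.ne N) hl.out.ne_zero⟩
  obtain ⟨d'⟩ := ALData.nonempty (N := N) (q := l) hl.out.pos
    ((Nat.Prime.coprime_iff_not_dvd hl.out).2 hlN)
  have := PD.ParFinite.finite_parabolicHoms_gamma0 N
  exact R1.DualIharaInst.hDual_of_pairings_mem (Par N) (Par (N * q)) hp (LP N) (LP (N * q))
    (fun x hx x' hx' y hy => LP_add_left hx hx' hy)
    (fun x hx y hy y' hy' => LP_add_right hx hy hy')
    (fun a ha a' ha' b hb => LP_add_left ha ha' hb)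
    (fun a ha b hb b' hb' => LP_add_right ha hb hb')
    (fun x hx h => LP_uni_prime p hp hx h)
    (fun m hm h => LP_uni_prime p hp hm h)
    (opLin (resSys N q)) (fun x hx => res1_mem_Par hx)
    (opLin (trSys N q)) (fun m hm => tr1_mem_Par hm)
    (opLin d.alSys) (fun m hm => wAL_mem_Par d hm)
    (fun m _ => wAL_wAL d m)
    (fun x hx m hm => LP_res1_eq_LP_tr1 hx hm)
    (fun a ha b hb => LP_wAL_wAL d ha hb)
    (TLin N l hlN) (fun x hx => TLin_mem_Par N l hlN hx) ((l : ℤ) + 1)
    (fun x hx y hy => LP_selfAdjoint_of_eq d' (fun φ => (cosetT N l hlN).heckeHom φ)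
      (fun φ => tr1_wAL_res1 hlN d' φ) hx hy)
    hIh

end Fermat.Agent.S41.Assembly
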